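import Fermat.Agent.Root.RemoveAux
import Fermat.Agent.Root.CharForms
import Fermat.Agent.RT.AlgPoints
import Mathlib.RingTheory.Ideal.MinimalPrime.Localization

/-!
# Removing an auxiliary prime from a residual level

An eigenform of level `N r` congruent to a curve modulo `p` gives one of level `N` if the square of
the residual trace of Frobenius at `r` is not `(r + 1)²`.
-/

set_option autoImplicit false
set_option linter.style.haveILetI false
set_option linter.unusedSectionVars false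
set_option synthInstance.maxHeartbeats 200000
set_option maxHeartbeats 1600000

noncomputable section

open CongruenceSubgroup WeierstrassCurve IsLocalRing Polynomial
open scoped TensorProduct

namespace FA.Root

open FA.HeckeH1

local notation "Qb" => AlgebraicClosure ℚ
local notation "OC" => integralClosure ℤ ℂ

/-- A character of an order with values in a field has a lift to a finite extension of the
coefficient ring with the same residual kernel. -/
theorem exists_point_over_prime {A₀ : Type} [CommRing A₀] [IsDomain A₀] [CharZero A₀]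
    [Module.Finite ℤ A₀] {O : Type} [CommRing O] [IsDomain O] [IsDiscreteValuationRing O]
    [IsAdicComplete (maximalIdeal O) O] [CharZero O] [Finite (ResidueField O)]
    {k : Type} [Field k] (ε : A₀ →+* k) (εO : O →+* k) (hεO : RingHom.ker εO = maximalIdeal O) :
    ∃ P : FA.RT.AlgPoint O O, ∃ χ : A₀ →+* P.B,
      Function.Injective χ ∧ ∀ (t : A₀) (n : ℤ), ε t = (n : k) → χ t - n ∈ maximalIdeal P.B := by
  classical
  let A := O ⊗[ℤ] A₀
  letI : Algebra ℤ k := Ring.toIntAlgebra k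
  letI : Algebra O k := εO.toAlgebra
  let φ : A →ₐ[O] k :=
    Algebra.TensorProduct.lift (Algebra.ofId O k) ε.toIntAlgHom fun _ _ => Commute.all _ _
  let Q : Ideal A := RingHom.ker φ.toRingHom
  haveI : Q.IsPrime := RingHom.ker_isPrime _
  obtain ⟨P', hP', hPQ⟩ := Ideal.exists_minimalPrimes_le (bot_le : (⊥ : Ideal A) ≤ Q)
  haveI : P'.IsPrime := hP'.1.1
  haveI : Module.Free ℤ A₀ := Module.free_of_finite_type_torsion_free'
  haveI : Module.Free O A := inferInstance
  have hcomap : ∀ c : O, c ≠ 0 → algebraMap O A c ∉ P' := fun c hc hmem => by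
    refine (Ideal.disjoint_nonZeroDivisors_of_mem_minimalPrimes hP').notMem_of_mem_left hmem ?_
    refine mem_nonZeroDivisors_iff_right.2 fun x hx => ?_
    rw [mul_comm, ← Algebra.smul_def] at hx
    exact (smul_eq_zero.1 hx).resolve_left hc
  have hinj : Function.Injective (algebraMap O (A ⧸ P')) := by
    rw [injective_iff_map_eq_zero]
    intro c hc
    by_contra h0
    exact hcomap c h0 (Ideal.Quotient.eq_zero_iff_mem.1 hc)
  obtain ⟨PB, hPB⟩ := FA.RT.exists_algPoint_of_isDomain (O := O) (A := (A ⧸ P')) hinj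
  let χ : A₀ →+* PB.B :=
    (PB.hom.toRingHom.comp (Ideal.Quotient.mk P')).comp
      Algebra.TensorProduct.includeRight.toRingHom
  let Q' : Ideal (A ⧸ P') := Q.map (Ideal.Quotient.mk P')
  haveI : Q'.IsPrime := Ideal.map_isPrime_of_surjective Ideal.Quotient.mk_surjective
    (by rw [Ideal.mk_ker]; exact hPQ)
  have hQp : ∀ c ∈ maximalIdeal O, algebraMap O A c ∈ Q := fun c hc => by
    show φ (algebraMap O A c) = 0
    rw [AlgHom.commutes]
    rw [← hεO] at hc
    exact hc
  letI : Algebra (A ⧸ P') PB.B := PB.hom.toRingHom.toAlgebra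
  haveI : Algebra.IsIntegral (A ⧸ P') PB.B := ⟨fun x => by
    obtain ⟨P, hP, hPx⟩ := Algebra.IsIntegral.isIntegral (R := O) x
    refine ⟨P.map (algebraMap O (A ⧸ P')), hP.map _, ?_⟩
    rw [Polynomial.eval₂_map]
    convert hPx using 2
    exact RingHom.ext fun c => PB.hom.commutes c⟩
  obtain ⟨m, -, hm, hmQ⟩ := Ideal.exists_ideal_over_prime_of_isIntegral (R := (A ⧸ P')) (S := PB.B) Q' ⊥
    (fun t ht => by
      have h0 : PB.hom t = 0 := ht
      have h1 : t = 0 := hPB (h0.trans (map_zero PB.hom).symm)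
      rw [h1]; exact zero_mem _)
  haveI := hm
  have hmle : m ≤ maximalIdeal PB.B := IsLocalRing.le_maximalIdeal hm.ne_top
  have hmem : ∀ x ∈ Q, PB.hom (Ideal.Quotient.mk P' x) ∈ maximalIdeal PB.B := fun x hx => by
    refine hmle ?_
    have h1 : Ideal.Quotient.mk P' x ∈ Q' := Ideal.mem_map_of_mem _ hx
    rw [← hmQ] at h1
    exact h1
  refine ⟨{ B := PB.B, hom := Algebra.ofId O PB.B }, χ, ?_, fun t n htn => ?_⟩
  · haveI : Algebra.IsIntegral ℤ A₀ := Algebra.IsIntegral.of_finite ℤ A₀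
    rw [RingHom.injective_iff_ker_eq_bot]
    refine Ideal.eq_bot_of_comap_eq_bot (R := ℤ) ((Submodule.eq_bot_iff _).2 fun a ha => ?_)
    rw [Ideal.mem_comap, RingHom.mem_ker, eq_intCast, map_intCast] at ha
    exact_mod_cast ha
  · have h1 : (Algebra.TensorProduct.includeRight.toRingHom : A₀ →+* A) (t - (n : A₀)) ∈ Q := by
      show φ ((1 : O) ⊗ₜ[ℤ] (t - (n : A₀))) = 0
      show Algebra.TensorProduct.lift (Algebra.ofId O k) ε.toIntAlgHom _ _ = 0
      rw [Algebra.TensorProduct.lift_tmul, map_one, one_mul]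
      show ε (t - n) = 0
      rw [map_sub, map_intCast, htn, sub_self]
    have h2 := hmem _ h1
    rw [← map_intCast χ n, ← map_sub]
    exact h2

variable {N r p : ℕ} [NeZero N] [Fact r.Prime] [hp : Fact p.Prime]

/-- **Removal of an auxiliary prime from a residual level.** -/
theorem isResiduallyModularOfLevel_of_aux {W : WeierstrassCurve ℤ} (hΔ : W.Δ ≠ 0) (hrN : ¬ r ∣ N)
    (hrp : r ≠ p) (hgood : W.IsGoodPrimeFor r)
    (haux : ((W.apOfModel r : ZMod p)) * (W.apOfModel r : ZMod p) ≠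
      ((r : ZMod p) + 1) * ((r : ZMod p) + 1))
    (h : W.IsResiduallyModularOfLevel p (N * r)) : W.IsResiduallyModularOfLevel p N := by
  classical
  obtain ⟨g, 𝔪, hg, hmax, hpm, hcong⟩ := h
  haveI := hmax
  have hr : r.Prime := Fact.out
  haveI : NeZero r := ⟨hr.ne_zero⟩
  haveI : NeZero (N * r) := ⟨mul_ne_zero (NeZero.ne N) hr.ne_zero⟩
  have hN0 : N * r ≠ 0 := NeZero.ne _
  let S : Finset ℕ := (N * r).primeFactors ∪ W.Δ.natAbs.primeFactors ∪ {p}
  have hout : ∀ ℓ : ℕ, ℓ.Prime → ℓ ∉ S → ℓ ≠ p ∧ W.IsGoodPrimeFor ℓ ∧ ¬ ℓ ∣ N * r :=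
    fun ℓ hℓ hℓS => by
    simp only [S, Finset.mem_union, Finset.mem_singleton, not_or, Nat.mem_primeFactors] at hℓS
    exact ⟨hℓS.2, fun hd => hℓS.1.2 ⟨hℓ, Int.natCast_dvd.1 hd, Int.natAbs_ne_zero.2 hΔ⟩,
      fun hd => hℓS.1.1 ⟨hℓ, hd, hN0⟩⟩
  by_cases hold : CuspForm.GoodEigensystemOccursAt g N
  · obtain ⟨h, hh, hhg⟩ := hold
    refine isResiduallyModularOfLevel_of_almost_all hΔ (NeZero.ne N) hh 𝔪 hpm S
      fun ℓ hℓ hℓS _ => ?_
    obtain ⟨hℓp, hg', hℓN⟩ := hout ℓ hℓ hℓS
    rw [hhg ℓ hℓ hℓN]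
    exact hcong ℓ hℓ hg' hℓN hℓp
  exfalso
  haveI : (FA.Frob.ratCurve W).IsElliptic := FA.Frob.ratCurve_isElliptic_of_Δ hΔ
  have hpS : p ∈ S := by simp [S]
  have hNS : ∀ q : ℕ, q.Prime → q ∣ N * r → q ∈ S := fun q hq hd => by
    simp [S, Nat.mem_primeFactors, hq, hd, hN0]
  obtain ⟨ψ, hψ⟩ := FA.JTorsion.exists_eigenChar (S := (↑S : Set ℕ)) hg
  let H := CuspForm.heckeAlgebra (N * r) 2 (↑S : Set ℕ)
  haveI : Module.Finite ℤ H := FA.Period.moduleFinite_heckeAlgebra (N * r) 2 _
  haveI : Module.Finite ℤ ψ.range :=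
    Module.Finite.of_surjective ψ.rangeRestrict.toAddMonoidHom.toIntLinearMap
      ψ.rangeRestrict_surjective
  -- the coefficients
  obtain ⟨O, iC, iD, iV, iA, iZ, iF, hpO, -, ⟨eO⟩⟩ := FA.RT.exists_coeffRing p (ZMod p)
  let kc := OC ⧸ 𝔪
  letI : Field kc := Ideal.Quotient.field 𝔪
  haveI : CharP kc p := by
    refine (CharP.charP_iff_prime_eq_zero hp.out).2 ?_
    rw [← map_natCast (Ideal.Quotient.mk 𝔪)]
    exact Ideal.Quotient.eq_zero_iff_mem.2 hpm
  let εO : O →+* kc := (ZMod.castHom (dvd_refl p) kc).comp (eO.toRingHom.comp (residue O))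
  have hεO : RingHom.ker εO = maximalIdeal O := by
    ext x
    rw [RingHom.mem_ker, ← residue_eq_zero_iff x]
    show ZMod.castHom (dvd_refl p) kc (eO (residue O x)) = 0 ↔ _
    rw [map_eq_zero, map_eq_zero_iff eO eO.injective]
  obtain ⟨PB, θ, hθ, hθres⟩ := exists_point_over_prime (A₀ := ψ.range)
    ((Ideal.Quotient.mk 𝔪).comp ψ.range.subtype) εO hεO
  let χ : H →+* PB.B := θ.comp ψ.rangeRestrict
  let chig : H →+* ℂ := (algebraMap OC ℂ).comp ψ
  have hpB : (p : PB.B) ∈ maximalIdeal PB.B := by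
    rw [← map_natCast (algebraMap O PB.B)]
    exact map_nonunit (algebraMap O PB.B) _ hpO
  -- the representation
  obtain ⟨O', i₁, i₂, i₃, i₄, i₅, i₆, i₇, i₈, i₉, -, ρ, hρ, hunr⟩ :=
    FA.JTorsion.exists_galoisRep_of_point p (N * r) (FA.JTorsion.goodRed_all _) S hpS PB.B hpB χ
  have hpO' : (p : O') ∈ maximalIdeal O' := by
    rw [← map_natCast (algebraMap PB.B O')]
    exact map_nonunit (algebraMap PB.B O') _ hpB
  obtain ⟨A, hA⟩ := FA.Deform.exists_liesOverPrime hr
  obtain ⟨σ, hσ⟩ := FA.Deform.exists_isFrobeniusAt hr hA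
  have hinjB : Function.Injective (algebraMap PB.B O') := by
    haveI : CharZero PB.B := PB.charZero
    exact (RingHom.injective_iff_ker_eq_bot _).2 (by
      by_contra hne
      obtain ⟨n, hn⟩ := IsDiscreteValuationRing.exists_irreducible PB.B
      obtain ⟨m, hm⟩ := IsDiscreteValuationRing.ideal_eq_span_pow_irreducible hne hn
      have hp0 : (p : PB.B) ∈ Ideal.span {n} := by
        rw [← hn.maximalIdeal_eq]; exact hpB
      obtain ⟨c, hc⟩ := Ideal.mem_span_singleton'.1 hp0
      have h1 : algebraMap PB.B O' (n ^ m) = 0 := RingHom.mem_ker.1 (by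
        rw [hm]; exact Ideal.mem_span_singleton_self _)
      have h2 : algebraMap PB.B O' n = 0 := by
        rw [map_pow] at h1; exact eq_zero_of_pow_eq_zero h1
      have h3 := congrArg (algebraMap PB.B O') hc
      rw [map_mul, h2, mul_zero, map_natCast] at h3
      exact (Fact.out : p.Prime).ne_zero (by exact_mod_cast h3.symm))
  have hchar := FA.ModField.trace_sq_of_new N r hasFibreData_all hrN hg hold p hrp S hpS hNS chig
    (fun ℓ hℓ hℓN hℓS => hψ ℓ hℓ hℓN hℓS) ((algebraMap PB.B O').comp χ)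
    (fun t ht => by
      have h0 : ψ.rangeRestrict t = 0 := hθ (by
        rw [map_zero]
        exact hinjB (by rw [map_zero]; exact ht))
      show algebraMap OC ℂ (ψ t) = 0
      rw [show ψ t = 0 from congrArg Subtype.val h0, map_zero]) hpO' ρ hρ hA hσ
  -- residual comparison
  let k := ResidueField O'
  haveI : CharP k p := (CharP.charP_iff_prime_eq_zero hp.out).2 (by
    rw [← map_natCast (residue O'), residue_eq_zero_iff]; exact hpO')
  let b := FA.Deform.repBasis ρ
  let r₀ : FA.Deform.GQ →* Matrix (Fin 2) (Fin 2) k :=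
    FA.Deform.mapRep (residue O') (FA.Deform.matrixOf ρ b)
  let e : FA.Deform.GQ →* Matrix (Fin 2) (Fin 2) k :=
    FA.Deform.mapRep (ZMod.castHom (dvd_refl p) k) (FA.RT.curveRep p W)
  have hr₀ : IsOpen (r₀.ker : Set FA.Deform.GQ) := by
    obtain ⟨L, hL, h⟩ := FA.Deform.isContRep_matrixOf ρ b 1
    refine Subgroup.isOpen_mono (H₁ := L.fixingSubgroup) (fun τ hτ => ?_)
      (IntermediateField.fixingSubgroup_isOpen L)
    rw [MonoidHom.mem_ker]
    show (residue O').mapMatrix (FA.Deform.matrixOf ρ b τ) = 1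
    rw [← map_one (residue O').mapMatrix]
    ext i l
    have := h τ ((IntermediateField.mem_fixingSubgroup_iff L τ).mp hτ) i l
    rw [pow_one] at this
    exact Ideal.Quotient.eq.2 this
  have he : IsOpen (e.ker : Set FA.Deform.GQ) :=
    Subgroup.isOpen_mono (fun τ hτ => by
      show (ZMod.castHom (dvd_refl p) k).mapMatrix (FA.RT.curveRep p W τ) = 1
      rw [MonoidHom.mem_ker.1 hτ, map_one]) (FA.RT.isOpen_ker_curveRep W)
  have htrP : ∀ (t : O') (d : O') (τ : FA.Deform.GQ),
      LinearMap.charpoly (ρ.ρ τ) = X ^ 2 - C t * X + C d →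
      (r₀ τ).trace = residue O' t ∧ (r₀ τ).det = residue O' d := by
    intro t d τ h
    obtain ⟨ht, hd⟩ := FA.Theta.trace_det_of_charpoly
      ((LinearMap.charpoly_toMatrix (ρ.ρ τ) b).trans h)
    constructor
    · show ((FA.Deform.matrixOf ρ b τ).map (residue O')).trace = _
      rw [← AddMonoidHom.map_trace, FA.Deform.matrixOf_apply, ht]
    · show ((residue O').mapMatrix (FA.Deform.matrixOf ρ b τ)).det = _
      rw [← RingHom.map_det, FA.Deform.matrixOf_apply, hd]
  have htrE : ∀ q : ℕ, q.Prime → W.IsGoodPrimeFor q → q ≠ p → ∀ B : ValuationSubring Qb,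
      B.LiesOverPrime q → ∀ τ : FA.Deform.GQ, B.IsFrobeniusAt τ q →
        (e τ).trace = (W.apOfModel q : k) ∧ (e τ).det = (q : k) := by
    intro q hq hg' hqp B hB τ hτ
    obtain ⟨ht, hd⟩ := FA.Theta.trace_det_of_charpoly (M := FA.RT.curveRep p W τ)
      ((LinearMap.charpoly_toMatrix _ _).trans
        (FA.Frob.charpoly_galoisRep W hq hg' (p := p) hqp.symm hB hτ))
    constructor
    · show ((FA.RT.curveRep p W τ).map (ZMod.castHom (dvd_refl p) k)).trace = _
      rw [← AddMonoidHom.map_trace, ht, map_intCast]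
    · show ((ZMod.castHom (dvd_refl p) k).mapMatrix (FA.RT.curveRep p W τ)).det = _
      rw [← RingHom.map_det, hd, map_natCast]
  obtain ⟨hT, -⟩ := FA.Density.trace_det_eq_of_frobenius r₀ e hr₀ he S (fun q hq hqS B hB τ hτ => by
    obtain ⟨hqp, hgq, hqN⟩ := hout q hq hqS
    have hqS' : q ∉ (↑S : Set ℕ) := by simpa using hqS
    obtain ⟨h1, h2⟩ := htrP _ _ τ (hρ q hq hqN hqS' B hB τ hτ)
    obtain ⟨h3, h4⟩ := htrE q hq hgq hqp B hB τ hτ
    refine ⟨?_, by rw [h2, h4, map_natCast]⟩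
    rw [h1, h3]
    have hT : χ (CuspForm.heckeAlgebra.T hq hqN hqS') - (W.apOfModel q : PB.B) ∈
        maximalIdeal PB.B := by
      refine hθres _ _ ?_
      obtain ⟨a, ha, ham⟩ := hcong q hq hgq hqN hqp
      show Ideal.Quotient.mk 𝔪 (ψ _) = _
      rw [show ψ (CuspForm.heckeAlgebra.T hq hqN hqS') = a from
        Subtype.ext ((hψ q hq hqN hqS').trans ha.symm), ← map_intCast (Ideal.Quotient.mk 𝔪)]
      exact Ideal.Quotient.eq.2 ham
    rw [← map_intCast (residue O'), ← map_intCast (algebraMap PB.B O')]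
    refine Ideal.Quotient.eq.2 ?_
    rw [← map_sub]
    exact map_nonunit (algebraMap PB.B O') _ hT) σ
  obtain ⟨h3, -⟩ := htrE r hr hgood hrp A hA σ hσ
  apply haux
  apply (ZMod.castHom (dvd_refl p) k).injective
  simp only [map_mul, map_add, map_one, map_intCast, map_natCast]
  rw [← h3, ← hT]
  rcases hchar with hc | hc
  · rw [(htrP _ _ σ hc).1, map_add, map_natCast, map_one]
  · have hc' : LinearMap.charpoly (ρ.ρ σ) =
        X ^ 2 - C (-((r : O') + 1)) * X + C ((r : O')) := by rw [hc, map_neg]; ring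
    rw [(htrP _ _ σ hc').1, map_neg, map_add, map_natCast, map_one, neg_mul_neg]

end FA.Root

end
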