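import Fermat.Agent.Root.CharForms
import Fermat.Agent.Twist.Point
import Fermat.Agent.Root.EigenClass

/-!
# Residual modularity passes to larger levels

A character of the Hecke algebra of a level into a field of characteristic `p` with the traces of a
curve gives residual modularity; the pullback of an eigenclass gives one at the level with one more
prime.
-/

set_option autoImplicit false
set_option linter.style.haveILetI false
set_option linter.unusedSectionVars false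
set_option maxHeartbeats 800000

noncomputable section

open CongruenceSubgroup WeierstrassCurve

namespace FA.Root

open FA.HeckeH1

local notation "OC" => integralClosure ℤ ℂ

variable {p : ℕ} [hp : Fact p.Prime] {N : ℕ} [NeZero N] {W : WeierstrassCurve ℤ}

/-- A character into a field of characteristic `p` with the traces of a curve gives residual
modularity. -/
theorem isResiduallyModularOfLevel_of_fieldHom (hΔ : W.Δ ≠ 0) (S : Finset ℕ)
    (hS : N.primeFactors ⊆ S) {k : Type} [Field k] [CharP k p]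
    (φ : CuspForm.heckeAlgebra N 2 (↑S : Set ℕ) →+* k)
    (hφ : ∀ (ℓ : ℕ) (hℓ : ℓ.Prime) (hℓN : ¬ ℓ ∣ N) (hℓS : ℓ ∉ (↑S : Set ℕ)),
      φ (CuspForm.heckeAlgebra.T hℓ hℓN hℓS) = (W.apOfModel ℓ : k)) :
    W.IsResiduallyModularOfLevel p N := by
  classical
  let f₀ : ZMod p →+* k := ZMod.castHom (dvd_refl p) k
  have hrange : ∀ t, φ t ∈ f₀.range := by
    rintro ⟨t, ht⟩
    induction ht using Algebra.adjoin_induction with
    | mem x hx =>
      rcases hx with ⟨ℓ, hℓ, hℓN, hℓS, rfl⟩ | ⟨q, hqN, hq, hqS, rfl⟩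
      · exact ⟨(W.apOfModel ℓ : ZMod p), (map_intCast f₀ _).trans (hφ ℓ hℓ hℓN hℓS).symm⟩
      · exact absurd (hS (Nat.mem_primeFactors.2 ⟨hq, hqN, NeZero.ne N⟩)) hqS
    | algebraMap n =>
      refine ⟨(n : ZMod p), ?_⟩
      rw [map_intCast f₀, ← map_intCast φ]
      exact congrArg φ (Subtype.ext (eq_intCast _ n).symm)
    | add x y hx hy h1 h2 =>
      obtain ⟨a, ha⟩ := h1
      obtain ⟨b, hb⟩ := h2
      exact ⟨a + b, by rw [map_add, ha, hb, ← map_add]; rfl⟩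
    | mul x y hx hy h1 h2 =>
      obtain ⟨a, ha⟩ := h1
      obtain ⟨b, hb⟩ := h2
      exact ⟨a * b, by rw [map_mul, ha, hb, ← map_mul]; rfl⟩
  have hbij : Function.Bijective f₀.rangeRestrict :=
    ⟨fun x y h => f₀.injective (congrArg Subtype.val h), f₀.rangeRestrict_surjective⟩
  refine isResiduallyModularOfLevel_of_char hΔ S
    ((RingEquiv.ofBijective f₀.rangeRestrict hbij).symm.toRingHom.comp
      (φ.codRestrict f₀.range hrange)) fun ℓ hℓ hℓN hℓS => ?_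
  show (RingEquiv.ofBijective f₀.rangeRestrict hbij).symm _ = _
  rw [RingEquiv.symm_apply_eq]
  exact Subtype.ext ((hφ ℓ hℓ hℓN hℓS).trans (map_intCast f₀ _).symm)

/-- **Raising the level by a prime.** -/
theorem isResiduallyModularOfLevel_mul (hΔ : W.Δ ≠ 0) {r : ℕ} (hr : r.Prime) (hrN : ¬ r ∣ N)
    (h : W.IsResiduallyModularOfLevel p N) : W.IsResiduallyModularOfLevel p (N * r) := by
  classical
  haveI : Fact r.Prime := ⟨hr⟩
  haveI : NeZero (N * r) := ⟨mul_ne_zero (NeZero.ne N) hr.ne_zero⟩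
  obtain ⟨f, 𝔪, hf, hm, hpm, hcong⟩ := h
  haveI := hm
  let S : Finset ℕ := (N * r).primeFactors ∪ W.Δ.natAbs.primeFactors ∪ {p}
  have hS : (N * r).primeFactors ⊆ S := fun x hx => by simp [S, hx]
  have hout : ∀ ℓ : ℕ, ℓ.Prime → ℓ ∉ (↑S : Set ℕ) →
      ℓ ≠ p ∧ W.IsGoodPrimeFor ℓ ∧ ¬ ℓ ∣ N * r := fun ℓ hℓ hℓS => by
    simp only [S, Finset.coe_union, Finset.coe_singleton, Set.mem_union, Finset.mem_coe,
      Set.mem_singleton_iff, not_or, Nat.mem_primeFactors] at hℓS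
    exact ⟨hℓS.2, fun hd => hℓS.1.2 ⟨hℓ, Int.natCast_dvd.1 hd, Int.natAbs_ne_zero.2 hΔ⟩,
      fun hd => hℓS.1.1 ⟨hℓ, hd, NeZero.ne _⟩⟩
  let c : ℕ → ℂ := fun ℓ => ModularFormClass.qCoeff f ℓ
  let z : Hom1 (GamH N ⊤) ℂ := perP N ⊤ (f, 0)
  have hz0 : z ≠ 0 := fun h0 => hf.ne_zero
    (congrArg Prod.fst (perP_injective (M := N) rfl (h0.trans (map_zero (perP N ⊤)).symm)))
  have hz : ∀ (ℓ : ℕ) [Fact ℓ.Prime], ¬ ℓ ∣ N → (Tc N ⊤ ℓ).act z = c ℓ • z := fun ℓ _ hℓN => by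
    haveI : NeZero ℓ := ⟨(Fact.out : ℓ.Prime).ne_zero⟩
    show (Tc N ⊤ ℓ).act (perP N ⊤ (f, 0)) = _
    rw [perP_Tc (fun _ => coprime_mem_top Fact.out hℓN), FA.JTorsion.heckeForm, dif_neg hℓN,
      FA.JTorsion.heckeT_eigen hf Fact.out hℓN, map_zero, FA.Deform.qLin_apply,
      show ((c ℓ) • f, (0 : CuspForm (Gamma0 N) 2)) = c ℓ • (f, 0) by
        rw [Prod.smul_mk, smul_zero], map_smul]
  have s : IsStep N r (⊤ : Subgroup (ZMod N)ˣ) (N * r) ⊤ :=
    ⟨hrN, rfl, dvd_mul_right N r, fun u => by simp⟩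
  have hy0 : s.res.act z ≠ 0 := fun h0 =>
    hz0 (res_injective_of_finite s.le (h0.trans (map_zero _).symm))
  obtain ⟨χ, hχ⟩ := FA.Twist.exists_point (A := ℂ) (N * r) S
    (fun q hq hd => hS (Nat.mem_primeFactors.2 ⟨hq, hd, NeZero.ne _⟩))
    (Par_act _ (perP_mem_Par (f, 0))) hy0 c fun ℓ _ hℓS => by
      have hℓN := (hout ℓ Fact.out (by simpa using hℓS)).2.2
      have hℓr : ℓ ≠ r := fun e => hℓN (e ▸ dvd_mul_left r N)
      rw [s.res_Tc hℓr, hz ℓ fun hd => hℓN (hd.mul_right r), Corr.act_smul]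
  haveI : Module.Finite ℤ (CuspForm.heckeAlgebra (N * r) 2 (↑S : Set ℕ)) :=
    FA.Period.moduleFinite_heckeAlgebra (N * r) 2 _
  let ψ : CuspForm.heckeAlgebra (N * r) 2 (↑S : Set ℕ) →+* OC :=
    χ.codRestrict (integralClosure ℤ ℂ).toSubring fun t =>
      (Algebra.IsIntegral.isIntegral (R := ℤ) t).map χ.toIntAlgHom
  letI : Field (OC ⧸ 𝔪) := Ideal.Quotient.field 𝔪
  haveI : CharP (OC ⧸ 𝔪) p := by
    refine (CharP.charP_iff_prime_eq_zero hp.out).2 ?_
    rw [← map_natCast (Ideal.Quotient.mk 𝔪)]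
    exact Ideal.Quotient.eq_zero_iff_mem.2 hpm
  refine isResiduallyModularOfLevel_of_fieldHom hΔ S hS ((Ideal.Quotient.mk 𝔪).comp ψ)
    fun ℓ hℓ hℓN hℓS => ?_
  obtain ⟨hℓp, hgood, -⟩ := hout ℓ hℓ hℓS
  obtain ⟨a, ha, ham⟩ := hcong ℓ hℓ hgood (fun hd => hℓN (hd.mul_right r)) hℓp
  rw [← map_intCast (Ideal.Quotient.mk 𝔪)]
  show Ideal.Quotient.mk 𝔪 (ψ _) = _
  rw [show ψ (CuspForm.heckeAlgebra.T hℓ hℓN hℓS) = a from
    Subtype.ext ((hχ ℓ hℓ hℓN hℓS).trans ha.symm)]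
  exact Ideal.Quotient.eq.2 ham

end FA.Root

end
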