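import Fermat.Agent.Root.LowerQ.World
import Fermat.Agent.Root.LowerQ.Raise
import Fermat.Agent.Root.LowerQ.AuxOld
import Fermat.Prelude.Def_GaloisRep_Residual

/-!
# Removal of an unramified prime from a squarefree residual level

For a semistable curve with irreducible residual representation at an odd `p`, a prime `q ≠ p` of a
squarefree level where the representation is unramified can be removed, given that `p` can be
removed where the representation is finite flat at `p`.
-/

set_option autoImplicit false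
set_option linter.style.haveILetI false
set_option linter.unusedSectionVars false
set_option maxHeartbeats 800000

noncomputable section

open scoped WeierstrassCurve.Affine
open IsLocalRing Matrix WeierstrassCurve FA.RT FA.Deform FA.TW FA.Frob

namespace FA.Root

local notation "Qb" => AlgebraicClosure ℚ
local notation "GQ" => AlgebraicClosure ℚ ≃ₐ[ℚ] AlgebraicClosure ℚ

variable {p : ℕ} [Fact p.Prime] {W : WeierstrassCurve ℤ}

/-- Unramified residual torsion gives the trivial matrix on inertia. -/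
theorem curveRep_eq_one_of_isUnramifiedAt [(FA.Frob.ratCurve W).IsElliptic]
    {hcard : Nat.card (Submodule.torsionBy ℤ
      ((W.map (Int.castRingHom ℚ))⁄Qb).Point p) = p ^ 2}
    {hker : GaloisFactorsThroughFiniteLevel
      (WeierstrassCurve.Affine.Point.galoisRepModuleEnd (K := Qb) ℚ
        (W.map (Int.castRingHom ℚ)) p)} {q : ℕ}
    (h : ((W.map (Int.castRingHom ℚ)).residualGaloisRepOf p hcard hker).IsUnramifiedAt q)
    {A : ValuationSubring Qb} (hA : A.LiesOverPrime q) {σ : GQ}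
    (hσ : σ ∈ A.inertiaSubgroupIn ℚ) : curveRep p W σ = 1 :=
  (curveRep_eq_one_iff W σ).2 fun x => LinearMap.congr_fun (h A hA σ hσ) x

theorem squarefree_mul_prime {M r : ℕ} (hM : Squarefree M) (hr : r.Prime) (hrM : ¬ r ∣ M) :
    Squarefree (M * r) :=
  (Nat.squarefree_mul (Nat.Coprime.symm (hr.coprime_iff_not_dvd.2 hrM))).2
    ⟨hM, hr.prime.squarefree⟩

theorem div_mul_aux {M q r : ℕ} (hqM : q ∣ M) : M * r / q = M / q * r :=
  Nat.mul_div_right_comm hqM r

/-- **Removal of `q` from a level prime to `p`, or for a très ramifiée representation.** -/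
theorem isResiduallyModularOfLevel_div_unr (hp2 : p ≠ 2) (hΔ : W.Δ ≠ 0) (hW : W.IsSemistableModel)
    [(FA.Frob.ratCurve W).IsElliptic] (hirr : W.ModRepIsIrreducible p) {M q : ℕ} (hq : q.Prime)
    (hqp : q ≠ p) (hqM : q ∣ M) (hM : Squarefree M)
    (hunr : ∀ A : ValuationSubring Qb, A.LiesOverPrime q → ∀ σ ∈ A.inertiaSubgroupIn ℚ,
      curveRep p W σ = 1)
    (hworld : (¬ p ∣ M ∧ ((p : ℤ) ∣ W.Δ → p ∣ padicValInt p W.Δ)) ∨
      ((p : ℤ) ∣ W.Δ ∧ ¬ p ∣ padicValInt p W.Δ))
    (h : W.IsResiduallyModularOfLevel p M) : W.IsResiduallyModularOfLevel p (M / q) := by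
  classical
  obtain ⟨r, hr, hrS, hrp, hrg, hr1, hrt⟩ := exists_aux_prime hΔ hW hp2 hirr (insert q M.primeFactors)
  simp only [Finset.mem_insert, not_or, Nat.mem_primeFactors] at hrS
  obtain ⟨hrq, hrM'⟩ := hrS
  have hrM : ¬ r ∣ M := fun hd => hrM' ⟨hr, hd, hM.ne_zero⟩
  haveI : NeZero M := ⟨hM.ne_zero⟩
  haveI : NeZero (M / q) :=
    ⟨(Nat.div_pos (Nat.le_of_dvd (Nat.pos_of_ne_zero hM.ne_zero) hqM) hq.pos).ne'⟩
  haveI : Fact r.Prime := ⟨hr⟩
  have hN := squarefree_mul_prime hM hr hrM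
  have hqN : q ∣ M * r := hqM.mul_right r
  have hrN : r ∣ M * r / q := by
    rw [div_mul_aux hqM]; exact dvd_mul_left r _
  have hup := isResiduallyModularOfLevel_mul hΔ hr hrM h
  obtain ⟨O, iC, iD, iV, iA, iZ, iF, hpO, -, ⟨ι⟩, j, hsplit⟩ := exists_coefficients p
  obtain ⟨P⟩ := exists_places
  have key : W.IsResiduallyModularOfLevel p (M * r / q) := by
    rcases hworld with ⟨hpM, hfl⟩ | ⟨hbad, htres⟩
    · have hpN : ¬ p ∣ M * r := fun hd => by
        rcases (Fact.out : p.Prime).dvd_mul.1 hd with hd | hd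
        · exact hpM hd
        · exact hrp ((Nat.prime_dvd_prime_iff_eq Fact.out hr).1 hd).symm
      exact isResiduallyModularOfLevel_div_aux W hp2 hpO ι j P hΔ hW hfl (M * r) hq hqp hqN hN hpN
        hr hrN hr1 hirr hsplit hunr hup
    · exact isResiduallyModularOfLevel_div_tres W hp2 hpO ι j P hΔ hW (M * r) hq hqp hqN hN
        hr hrN hr1 hbad htres hirr hsplit hunr hup
  rw [div_mul_aux hqM] at key
  refine isResiduallyModularOfLevel_of_aux hΔ (fun hd => hrM (hd.trans (Nat.div_dvd_of_dvd hqM)))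
    hrp hrg ?_ key
  rw [hr1, neg_add_cancel, zero_mul]
  exact mul_self_ne_zero.mpr hrt

/-- **Removal of an unramified prime from a squarefree level**, given the removal of `p` where the
representation is finite flat at `p`. -/
theorem isResiduallyModularOfLevel_div_sqf (hp2 : p ≠ 2) (hΔ : W.Δ ≠ 0) (hW : W.IsSemistableModel)
    (hirr : W.ModRepIsIrreducible p) {M q : ℕ} (hq : q.Prime) (hqp : q ≠ p) (hqM : q ∣ M)
    (hM : Squarefree M)
    (hunr : ∀ [(FA.Frob.ratCurve W).IsElliptic], ∀ A : ValuationSubring Qb, A.LiesOverPrime q →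
      ∀ σ ∈ A.inertiaSubgroupIn ℚ, curveRep p W σ = 1)
    (hlow : ((p : ℤ) ∣ W.Δ → p ∣ padicValInt p W.Δ) → p ∣ M →
      W.IsResiduallyModularOfLevel p M → W.IsResiduallyModularOfLevel p (M / p))
    (h : W.IsResiduallyModularOfLevel p M) : W.IsResiduallyModularOfLevel p (M / q) := by
  classical
  haveI : (FA.Frob.ratCurve W).IsElliptic := FA.Frob.ratCurve_isElliptic_of_Δ hΔ
  have hp : p.Prime := Fact.out
  by_cases htres : (p : ℤ) ∣ W.Δ ∧ ¬ p ∣ padicValInt p W.Δ
  · exact isResiduallyModularOfLevel_div_unr hp2 hΔ hW hirr hq hqp hqM hM hunr (Or.inr htres) h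
  have hfl : (p : ℤ) ∣ W.Δ → p ∣ padicValInt p W.Δ := fun hd => by_contra fun hv => htres ⟨hd, hv⟩
  by_cases hpM : p ∣ M
  swap
  · exact isResiduallyModularOfLevel_div_unr hp2 hΔ hW hirr hq hqp hqM hM hunr
      (Or.inl ⟨hpM, hfl⟩) h
  have h1 := hlow hfl hpM h
  have hMp : Squarefree (M / p) := hM.squarefree_of_dvd (Nat.div_dvd_of_dvd hpM)
  have hqMp : q ∣ M / p := by
    obtain ⟨k, rfl⟩ := hpM
    rw [Nat.mul_div_cancel_left k hp.pos]
    exact (hq.dvd_mul.1 hqM).resolve_left fun hd => hqp ((Nat.prime_dvd_prime_iff_eq hq hp).1 hd)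
  have hpMp : ¬ p ∣ M / p := fun hd => by
    have h2 := Nat.mul_dvd_mul_left p hd
    rw [Nat.mul_div_cancel' hpM] at h2
    exact hp.ne_one (Nat.isUnit_iff.1 (hM p h2))
  have h2 := isResiduallyModularOfLevel_div_unr hp2 hΔ hW hirr hq hqp hqMp hMp hunr
    (Or.inl ⟨hpMp, hfl⟩) h1
  haveI : NeZero (M / p / q) :=
    ⟨(Nat.div_pos (Nat.le_of_dvd (Nat.pos_of_ne_zero hMp.ne_zero) hqMp) hq.pos).ne'⟩
  have h3 := isResiduallyModularOfLevel_mul hΔ hp
    (fun hd => hpMp (hd.trans (Nat.div_dvd_of_dvd hqMp))) h2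
  have he : M / p / q * p = M / q := by
    rw [← div_mul_aux hqMp, Nat.div_mul_cancel hpM]
  rwa [he] at h3

end FA.Root

end
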