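import Fermat.Agent.Root.LowerQ.Flat

/-!
# The lifting problem of a removal with `p` allowed in the level

Where the residual representation is très ramifiée at `p` the lifts at every level are strictly
ordinary at `p`; the setting is that of the curve and the levels may contain `p`.
-/

set_option autoImplicit false
set_option linter.style.haveILetI false
set_option linter.unusedSectionVars false
set_option maxHeartbeats 800000
set_option synthInstance.maxHeartbeats 200000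

noncomputable section

open IsLocalRing Matrix WeierstrassCurve FA.RT FA.Deform FA.TW FA.Frob FA.HeckeH1
open FA.JTorsion (cycP cycK cycP_frobenius)
open scoped MatrixGroups

namespace FA.Root

local notation "M2" => Matrix (Fin 2) (Fin 2)
local notation "Qb" => AlgebraicClosure ℚ
local notation "GQ" => AlgebraicClosure ℚ ≃ₐ[ℚ] AlgebraicClosure ℚ

variable {p : ℕ} [Fact p.Prime] (W : WeierstrassCurve ℤ) [(FA.Frob.ratCurve W).IsElliptic]
  {O : Type} [CommRing O] [IsDomain O] [IsDiscreteValuationRing O]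
  [IsAdicComplete (maximalIdeal O) O] [CharZero O] [Finite (ResidueField O)]
  (hp2 : p ≠ 2) (hpO : (p : O) ∈ maximalIdeal O) (ι : ℤ_[p] →+* O)
  (j : ZMod p →+* ResidueField O) (P : Places) (hΔ : W.Δ ≠ 0) (hW : W.IsSemistableModel)
  (N : ℕ)

/-- The lifting problem of a removal in the world of the curve at `p`. -/
abbrev wRemSetup : Setup O :=
  curveSetup W hp2 hpO ι j P hΔ hW (remSig W N p) (remSig_spec W N p)

local notation "SS" => wRemSetup W hp2 hpO ι j P hΔ hW N

variable {q : ℕ} (hq : q.Prime) (hqp : q ≠ p) (hqN : q ∣ N) (hN : Squarefree N)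

/-- The prime which is removed. -/
def wRemEmb (_ : Unit) : ↥(SS).Sig := ⟨q, mem_remSig hq hqp hN.ne_zero hqN⟩

local notation "EE" => wRemEmb W hp2 hpO ι j P hΔ hW N hq hqp hqN hN

/-- The levels `N` and `N / q`; they may contain `p`. -/
def wRemLevels : LevelSet (fun x => (EE x).1) (SS).T where
  L0 := N / q
  S := (SS).T.subtype Nat.Prime
  pos := (Nat.div_pos (Nat.le_of_dvd (Nat.pos_of_ne_zero hN.ne_zero) hqN) hq.pos).ne'
  prime _ := hq
  inj _ _ _ := rfl
  not_dvd _ h := by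
    have h1 := Nat.mul_dvd_mul_left q h
    rw [Nat.mul_div_cancel' hqN] at h1
    exact hq.ne_one (Nat.isUnit_iff.1 (hN q h1))
  mem_S _ := Finset.mem_subtype.2 (Finset.mem_insert_of_mem (mem_remSig hq hqp hN.ne_zero hqN))
  mem_bad ℓ hℓ h := by
    by_cases hℓp : ℓ = p
    · exact Finset.mem_insert.2 (Or.inl hℓp)
    · exact Finset.mem_insert_of_mem
        (mem_remSig hℓ hℓp hN.ne_zero (h.trans (Nat.div_dvd_of_dvd hqN)))
  qn_bad _ := Finset.mem_insert_of_mem (mem_remSig hq hqp hN.ne_zero hqN)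

local notation "LL" => wRemLevels W hp2 hpO ι j P hΔ hW N hq hqp hqN hN

theorem wRem_lvl_univ : (LL).lvl Finset.univ = N := by
  show N / q * ∏ _x ∈ (Finset.univ : Finset Unit), q = N
  rw [Fintype.prod_unique, Nat.div_mul_cancel hqN]

theorem wRem_lvl_empty : (LL).lvl ∅ = N / q := by
  show N / q * ∏ _x ∈ (∅ : Finset Unit), q = N / q
  rw [Finset.prod_empty, mul_one]

theorem frobTrace_wRem : FrobTrace SS (LL).L0 (LL).S (remSys W) := fun ℓ hℓ _ _ A hA σ hσ => by
  have hℓT : (ℓ : ℕ) ∉ insert p (remSig W N p) := fun h => hℓ (Finset.mem_subtype.2 h)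
  obtain ⟨hlp, hg⟩ := good_of_notMem_remSig W hΔ ℓ.2 hℓT
  symm
  show ((j.mapMatrix (curveRep p W σ))).trace = _
  rw [RingHom.mapMatrix_apply, ← AddMonoidHom.map_trace j,
    trace_curveRep W ℓ.2 hg (Ne.symm hlp) hA hσ, map_intCast]
  rfl

theorem squarefree_wRemL0 : Squarefree (LL).L0 := hN.squarefree_of_dvd (Nat.div_dvd_of_dvd hqN)

theorem sq_not_dvd_wRemL0 (s : ℕ) (hs : s ∈ (SS).Sig) : ¬ s * s ∣ (LL).L0 := fun h =>
  ((SS).prime_Sig s hs).1.ne_one (Nat.isUnit_iff.1
    (squarefree_wRemL0 W hp2 hpO ι j P hΔ hW N hq hqp hqN hN s h))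

section seps

variable (hbad : (p : ℤ) ∣ W.Δ) (htres : ¬ p ∣ padicValInt p W.Δ)

include hbad htres in
/-- **The separating lifts at the base.** -/
theorem wRemBaseSep (hirr : W.ModRepIsIrreducible p) :
    Nonempty (∀ U, (SS).Separation EE ((LL).baseLevels (remSys W)) U
      ((SS).BaseAllowed fun B _ _ _ m => AtWorld p W B m)) := by
  haveI : Fact (SS).p.Prime := ⟨(SS).hp⟩
  have hNE := remSys_ne W hp2 hpO hΔ (O := O) hirr
  have hspan := curveSetup_span W hp2 hpO ι j P hΔ hW _ (remSig_spec W N p) hirr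
  have hc := frobTrace_wRem W hp2 hpO ι j P hΔ hW N hq hqp hqN hN
  have hsqf := squarefree_wRemL0 W hp2 hpO ι j P hΔ hW N hq hqp hqN hN
  refine ⟨fun U => Classical.choice (exists_baseSeparation (S := SS) (emb := EE) LL (remSys W) hNE ι
    (fun _ => rfl) hspan (fun σ => det_curveRep_cycP W hpO ι j σ) hc
    (fun s hs h => (LL).mem_bad s hs h) (sq_not_dvd_wRemL0 W hp2 hpO ι j P hΔ hW N hq hqp hqN hN)
    (Finset.mem_insert_self _ _) U fun D => ⟨fun _ => ?_, fun hgood => absurd hbad hgood⟩)⟩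
  by_cases hpL : p ∣ (LL).L0
  · exact (twPiece_base (S := SS) (emb := EE) LL (remSys W) hNE hc U).atStrict_of_not_flat hp2 hpO
      (hpL.trans ((LL).dvd_lvl U))
      (fun h => (Fact.out : p.Prime).ne_one (Nat.isUnit_iff.1 (squarefree_levelSet LL hsqf U p h)))
      hspan (fun A hA => isOrdType_mapRep_curveRep W hΔ hW hp2 hbad j A hA)
      D.hz D.hη D.hm D.lift D.cont D.det D.trace
      (not_atFlat_pointRing_of_tres W hΔ hW hp2 hbad htres j D.lift)
  · exact (not_atFlat_pointRing_of_tres W hΔ hW hp2 hbad htres j D.lift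
      (flat_basePoint (S := SS) (emb := EE) LL (remSys W) hNE hspan hc hpL U D)).elim

include hbad htres in
/-- **The separating lifts at the Taylor–Wiles levels.** -/
theorem wRemDepthSep (hirr : W.ModRepIsIrreducible p) (rr n : ℕ) (D : (SS).TWSet rr n)
    (ab : Fin rr → ResidueField O) (hinj : Function.Injective D.qv) (hT : ∀ i, D.qv i ∉ (SS).T) :
    haveI : NeZero (SS).p := ⟨(SS).hp.ne_zero⟩
    ∀ T : TWPart LL (remSys W) (DGroup (SS).p D.expo) ((SS).T ∪ Finset.univ.image D.qv),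
      T.p = (SS).p → T.Q = twQ D →
      (∀ (i : Fin rr) (q : Nat.Primes), (q : ℕ) = D.qv i → residue O (T.α q) = ab i) →
      (∀ (i : Fin rr) (u : (ZMod (∏ q ∈ T.Q, (q : ℕ)))ˣ),
        haveI : Fact (D.qv i).Prime := ⟨(D.prime i).1⟩
        (ZMod.cast (u : ZMod (∏ q ∈ T.Q, (q : ℕ))) : ZMod (D.qv i)) =
          (cycK (D.qv i) (ZMod (D.qv i)) (D.s i) : ZMod (D.qv i)) →
        (∀ j, j ≠ i →
          (ZMod.cast (u : ZMod (∏ q ∈ T.Q, (q : ℕ))) : ZMod (D.qv j)) = 1) →
        T.κ u * dGen (SS).p D.expo i ^ 2 = 1) →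
      ∃ sep : ∀ U, (SS).Separation EE T.depthLevels U
          (D.Allowed fun B _ _ _ m => AtWorld p W B m),
        ∀ U (i : Fin rr) (j : (sep U).pts.J), ∃ a : (sep U).pts.B j, (sep U).pts.ε j a = ab i ∧
          a * a - ((sep U).pts.r j (D.φ i)).trace * a + ((sep U).pts.r j (D.φ i)).det = 0 ∧
          (2 * a - ((sep U).pts.r j (D.φ i)).trace) *
              (sep U).ev (T.diaA U (dGen (SS).p D.expo i)) j =
            ((sep U).pts.r j (D.φ i) * (sep U).pts.r j (D.s i)).trace -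
              (((sep U).pts.r j (D.φ i)).trace - a) * ((sep U).pts.r j (D.s i)).trace := by
  intro T hTp hTQ hTα hTκ
  haveI : Fact (SS).p.Prime := ⟨(SS).hp⟩
  haveI : NeZero (SS).p := ⟨(SS).hp.ne_zero⟩
  have hspan := curveSetup_span W hp2 hpO ι j P hΔ hW _ (remSig_spec W N p) hirr
  have hc := frobTrace_wRem W hp2 hpO ι j P hΔ hW N hq hqp hqN hN
  have hsqf := squarefree_wRemL0 W hp2 hpO ι j P hΔ hW N hq hqp hqN hN
  have key := fun U => depthSeparations (S := SS) (emb := EE)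
    (AtP := fun B _ _ _ m => AtWorld p W B m) D T hTp (by rw [hTQ]; exact image_twQ D) ι
    (fun _ => rfl) hspan (fun σ => det_curveRep_cycP W hpO ι j σ) hc
    (fun s hs h => (LL).mem_bad s hs h) (sq_not_dvd_wRemL0 W hp2 hpO ι j P hΔ hW N hq hqp hqN hN)
    (Finset.mem_insert_self _ _) hT hinj ab hTα hTκ U
    (fun E => ⟨fun _ => by
      by_cases hpL : p ∣ (LL).L0
      · exact atStrict_depthPoint depthPieces (S := SS) (emb := EE) T hTp hspan hc U
          (hpL.trans ((LL).dvd_lvl U)) hsqf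
          (fun A hA => isOrdType_mapRep_curveRep W hΔ hW hp2 hbad j A hA)
          (fun _ _ _ _ _ _ _ _ _ _ _ hr =>
            not_atFlat_pointRing_of_tres W hΔ hW hp2 hbad htres j hr) E
      · exact (not_atFlat_pointRing_of_tres W hΔ hW hp2 hbad htres j E.lift
          (atFlat_depthPoint depthPieces (S := SS) (emb := EE) T hTp hspan hc hpL U E)).elim,
      fun hgood => absurd hbad hgood⟩)
  choose sep hsep using key
  exact ⟨sep, hsep⟩

end seps

section towers

variable {r : ℕ} (hr : r.Prime) (hrN : r ∣ N / q) (hr1 : (r : ZMod p) = -1)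

include hqp hr hrN hr1 in
/-- **The Hecke data of a Taylor–Wiles set of the removal.** -/
theorem exists_wRemTWPart (hirr : W.ModRepIsIrreducible p) {rr n : ℕ}
    (D : (SS).TWSet rr n) (ab : Fin rr → ResidueField O) (hinj : Function.Injective D.qv)
    (hgen : IsTameGenSet D) (hT : ∀ i, D.qv i ∉ (SS).T)
    (hab : ∀ i, ab i * ab i - ((SS).rb (D.φ i)).trace * ab i + ((SS).rb (D.φ i)).det = 0) :
    haveI : NeZero (SS).p := ⟨(SS).hp.ne_zero⟩
    ∃ T : TWPart LL (remSys W) (DGroup (SS).p D.expo) ((SS).T ∪ Finset.univ.image D.qv),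
      T.p = (SS).p ∧ T.Q = twQ D ∧
      (∀ (i : Fin rr) (q : Nat.Primes), (q : ℕ) = D.qv i → residue O (T.α q) = ab i) ∧
      ∀ (i : Fin rr) (u : (ZMod (∏ q ∈ T.Q, (q : ℕ)))ˣ),
        haveI : Fact (D.qv i).Prime := ⟨(D.prime i).1⟩
        (ZMod.cast (u : ZMod (∏ q ∈ T.Q, (q : ℕ))) : ZMod (D.qv i)) =
          (cycK (D.qv i) (ZMod (D.qv i)) (D.s i) : ZMod (D.qv i)) →
        (∀ j, j ≠ i →
          (ZMod.cast (u : ZMod (∏ q ∈ T.Q, (q : ℕ))) : ZMod (D.qv j)) = 1) →
        T.κ u * dGen (SS).p D.expo i ^ 2 = 1 := by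
  haveI : Fact r.Prime := ⟨hr⟩
  haveI : NeZero (LL).L0 := ⟨(LL).pos⟩
  refine exists_twPart D hinj hgen LL (remSys W) (remSys_ne W hp2 hpO hΔ hirr)
    (isNeatOn_of_prime hp2 hpO hrN hr1) hT
    (fun i ℓ hℓ h => hT i (hℓ ▸ Finset.mem_subtype.1 h)) ab hab fun i ℓ hℓ => ?_
  obtain ⟨hℓp, hg⟩ := good_of_notMem_remSig W hΔ ℓ.2
    (hℓ ▸ hT i : (ℓ : ℕ) ∉ insert p (remSig W N p))
  have hσ : (P.place (ℓ : ℕ)).IsFrobeniusAt (D.φ i) ℓ := hℓ ▸ D.φ_spec i
  refine ⟨?_, det_mapRep_curveRep W j _ _ fun μ hμ =>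
    FA.TW.frobenius_apply_rootOfUnity (m := 1) Fact.out ℓ.2 hℓp (P.liesOver _ ℓ.2) hσ
      (by rw [pow_one]; exact hμ)⟩
  show ((j.mapMatrix (curveRep p W (D.φ i)))).trace = _
  rw [RingHom.mapMatrix_apply, ← AddMonoidHom.map_trace j,
    trace_curveRep W ℓ.2 hg (Ne.symm hℓp) (P.liesOver _ ℓ.2) hσ, map_intCast]
  rfl

include hqp hr hrN hr1 in
/-- **The rank of inertia on the modules of the removal.** -/
theorem wRemMonoTower (hirr : W.ModRepIsIrreducible p)
    (sep : ∀ U, (SS).Separation EE ((LL).baseLevels (remSys W)) U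
      ((SS).BaseAllowed fun B _ _ _ m => AtWorld p W B m)) :
    Setup.MonoTower ((LL).baseTower SS (remSys W) (remSys_ne W hp2 hpO hΔ hirr) sep) :=
  letI : Algebra Qb ℂ := (IsAlgClosed.lift (R := ℚ) (S := Qb) (M := ℂ)).toRingHom.toAlgebra
  Setup.monoTower_of_monoAt LL (remSys W) (remSys_ne W hp2 hpO hΔ hirr)
    (fun ℓ hℓ hd => hℓ (Finset.mem_subtype.2 ((LL).mem_bad _ ℓ.2 hd)))
    (Finset.mem_insert_self _ _)
    (fun ℓ hℓ hb A hA σ hσ => by
      show residue O (ι (cycP p σ : ℤ_[p])) = _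
      rw [cycP_frobenius p hℓ (fun e => hb (Finset.mem_insert.2 (Or.inl e))) hA hσ, map_natCast,
        map_natCast])
    sep (curveSetup_span W hp2 hpO ι j P hΔ hW _ (remSig_spec W N p) hirr)
    (fun _ _ _ => goodWidths_of_dvd (Fact.out : p.Prime) hq hp2 hqp
      (hrN.trans ((LL).dvd_lvl _)) hr1)
    fun M r _ _ _ A s => FA.ModField.monoAt M r (SS).p (ResidueField O) A s _ _

include hp2 hpO ι P hΔ hW hq hqp hqN hN hr hrN hr1 in
/-- **Removal with an auxiliary prime**, for a très ramifiée representation. -/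
theorem isResiduallyModularOfLevel_div_tres (hbad : (p : ℤ) ∣ W.Δ)
    (htres : ¬ p ∣ padicValInt p W.Δ) (hirr : W.ModRepIsIrreducible p)
    (hsplit : ∀ t d : ZMod p, ∃ a, a * a - j t * a + j d = 0)
    (hunr : ∀ A : ValuationSubring Qb, A.LiesOverPrime q → ∀ σ ∈ A.inertiaSubgroupIn ℚ,
      curveRep p W σ = 1)
    (h : W.IsResiduallyModularOfLevel p N) : W.IsResiduallyModularOfLevel p (N / q) := by
  classical
  have hp : p.Prime := Fact.out
  haveI : CharP (ResidueField O) p := (CharP.charP_iff_prime_eq_zero hp).mpr (by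
    rw [← map_natCast (residue O), residue_eq_zero_iff]; exact hpO)
  have hNE := remSys_ne W hp2 hpO hΔ (O := O) hirr
  obtain ⟨sep⟩ := wRemBaseSep W hp2 hpO ι j P hΔ hW N hq hqp hqN hN hbad htres hirr
  have hgood : ∀ ℓ : Nat.Primes, ℓ ∉ (LL).S → W.IsGoodPrimeFor ℓ ∧ ¬ (ℓ : ℕ) ∣ N ∧ (ℓ : ℕ) ≠ p :=
    fun ℓ hℓ => by
    have hT : (ℓ : ℕ) ∉ (SS).T := fun hT => hℓ (Finset.mem_subtype.2 hT)
    have hlp : (ℓ : ℕ) ≠ p := fun e => hT (Finset.mem_insert.2 (Or.inl e))
    exact ⟨fun hd => hT (Finset.mem_insert_of_mem (mem_remSig_of_bad hΔ ℓ.2 hlp hd)),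
      fun hd => hT (Finset.mem_insert_of_mem (mem_remSig ℓ.2 hlp hN.ne_zero hd)), hlp⟩
  have hlu := wRem_lvl_univ W hp2 hpO ι j P hΔ hW N hq hqp hqN hN
  have hle := wRem_lvl_empty W hp2 hpO ι j P hΔ hW N hq hqp hqN hN
  have hsys : HasSys (LL).S (remSys W (O := O)) ((LL).lvl Finset.univ) :=
    hasSys_of_isResiduallyModularOfLevel (p := p) (W := W) (fun _ _ => rfl)
      (fun ℓ hℓ => by rw [hlu]; exact hgood ℓ hℓ) (by rw [hlu]; exact h)
  by_cases hlow : HasSys (LL).S (remSys W (O := O)) ((LL).lvl ∅)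
  · have h1 := isResiduallyModularOfLevel_of_hasSys (p := p) (W := W) hΔ (fun _ _ => rfl) hNE hlow
    rwa [hle] at h1
  exfalso
  let base := (LL).baseTower SS (remSys W) hNE sep
  have hd0 : Module.finrank O (base.M ∅) = 0 := by
    show Module.finrank O (Fin ((LL).frame (remSys W) ∅).d → O) = 0
    rw [Module.finrank_fin_fun, TWPart.base_d_eq_zero _ hlow]
  have hd : base.rk Finset.univ ≠ 0 := fun h0 => by
    have h1 : ((LL).frame (remSys W (O := O)) Finset.univ).d = 0 :=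
      (Module.finrank_fin_fun (R := O)).symm.trans h0
    obtain ⟨χ, e, -, he, hee⟩ := exists_sysPiece hsys
    have he0 : e = 0 := Subtype.ext (LinearMap.ext fun z => by
      rw [hee, ← LevelSet.frame_e, ← Frame.emb_coord]
      have : Subsingleton (Fin ((LL).frame (remSys W (O := O)) Finset.univ).d → O) := by
        rw [h1]; infer_instance
      rw [Subsingleton.elim (Frame.coord _ z) 0, map_zero]
      rfl)
    exact one_ne_zero (he.char.symm.trans (by rw [he0, map_zero]))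
  have hhalf : Setup.HalfRankAt base Finset.univ (EE ()) := fun C₀ f hf m b => by
    have h1 := wRemMonoTower W hp2 hpO ι j P hΔ hW N hq hqp hqN hN hr hrN hr1 hirr sep
      C₀ Finset.univ () (Finset.mem_univ _) f hf m b
    have he : (Finset.univ : Finset Unit).erase () = ∅ := by decide
    rw [he] at h1
    change _ + 2 * Module.finrank O (base.M ∅) = m at h1
    rw [hd0, mul_zero, add_zero] at h1
    exact h1
  have hres : (SS).rb ((SS).tame (EE ())) = 1 := by
    show mapRep j (curveRep p W) _ = 1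
    rw [mapRep_eq, hunr _ (P.liesOver q hq) _ ((SS).tame_mem (EE ()))]
    exact Matrix.map_one j (map_zero j) (map_one j)
  have hall : ∀ s : ℕ, s.Prime → (s : ℤ) ∣ W.Δ → s = p ∨ s ∈ remSig W N p := fun s hs hd =>
    (em (s = p)).imp id fun hne => mem_remSig_of_bad hΔ hs hne hd
  obtain ⟨GW⟩ := FA.GalCoh.nonempty_greenbergWiles hp2 (SS).rb
    (isOpen_ker_mapRep_curveRep W j) (fun σ a ha => det_mapRep_curveRep W j σ a ha) P (SS).T
    (Finset.mem_insert_self _ _)
    (curveSetup_unr W hp2 hpO ι j P hΔ hW _ (remSig_spec W N p) hall)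
  obtain ⟨rr, hrr⟩ := curveSetup_twSets W hp2 hpO ι j P hΔ hW _ (remSig_spec W N p) hirr hall GW ∅
  obtain ⟨⟨F, hF⟩, hup⟩ := curveSetup_frame W hp2 hpO ι j P hΔ hW _ (remSig_spec W N p) hirr
  refine Setup.false_of_tower_mono base Finset.univ hd (EE ()) hres hhalf
    (curveSetup_cyc_frob W hp2 hpO ι j P hΔ hW _ (remSig_spec W N p))
    (curveSetup_cyc_tame W hp2 hpO ι j P hΔ hW _ (remSig_spec W N p))
    (curveSetup_span W hp2 hpO ι j P hΔ hW _ (remSig_spec W N p) hirr) F hF hup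
    (fun S' M t => curveSetup_atP W hp2 hpO ι j P hΔ hW _ (remSig_spec W N p) S' M t)
    ⟨rr, fun n => ?_⟩
  obtain ⟨D₀, hinj₀, hD₀⟩ := hrr n
  obtain ⟨D, hDq, hgen⟩ := exists_retame D₀
  have hinj : Function.Injective D.qv := hDq ▸ hinj₀
  have hD : ∀ i, D.qv i ∉ (SS).T := fun i => hDq ▸ (hD₀ i).1
  choose ab hab using fun i => exists_root_curveRep W j hsplit (D.φ i)
  obtain ⟨T, hTp, hTQ, hTα, hTκ⟩ :=
    exists_wRemTWPart W hp2 hpO ι j P hΔ hW N hq hqp hqN hN hr hrN hr1 hirr D ab hinj hgen hD hab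
  obtain ⟨sep', hev⟩ := wRemDepthSep W hp2 hpO ι j P hΔ hW N hq hqp hqN hN hbad htres hirr rr n D ab
    hinj hD T hTp hTQ hTα hTκ
  exact ⟨D, ab, hab, hD, ⟨T.depthTower sep' hev⟩⟩

end towers

end FA.Root

end
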